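import Fermat.Agent.LT.A2.H314.TorLocal

/-!
# Row LT, tower A2, leaf A2.03.8.5.8 `H254.DecompC254` (helper314): the local theorem in `GL₂(F)`

OFF-MAIN.  Mathlib only.

`local_decomp314`: `F` a field with a valuation `val : Valuation F ℤᵐ⁰`, `t`, `n` integral with
`t² - 4n` a unit, `M, M̄ ∈ GL₂(F)`, `M` in the torus, integral, `det M = ϖ` a uniformiser,
`M M̄ = ϖ`; `R = M M̄⁻¹`.  Then for every `X` in the torus with `det X = 1` there is exactly one
`i : ℤ` such that `R^(-i) X` and its inverse are integral.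
-/

set_option autoImplicit false

namespace Fermat.Agent.LT.A2.H314

/-! ## Two identities in a commutative group, one in a group -/

theorem cg_exist314 {G : Type*} [CommGroup G] (a b x k : G) (e i j : ℕ) (hij : i + j = 2 * e)
    (h : (a * b) ^ e * x = a ^ i * b ^ j * k) : (a * b⁻¹) ^ (-((i : ℤ) - e)) * x = k := by
  have hx : x = ((a * b) ^ e)⁻¹ * (a ^ i * b ^ j * k) := eq_inv_mul_of_mul_eq h
  have hj : (j : ℤ) = 2 * e - i := by omega
  rw [hx, ← zpow_natCast, ← zpow_natCast a, ← zpow_natCast b, hj, mul_zpow, mul_zpow,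
    inv_zpow', mul_inv, ← zpow_neg, ← zpow_neg]
  have : a ^ (-((i : ℤ) - e)) * b ^ (-(-((i : ℤ) - e)))
      * (a ^ (-(e : ℤ)) * b ^ (-(e : ℤ)) * (a ^ (i : ℤ) * b ^ (2 * (e : ℤ) - i) * k))
      = (a ^ (-((i : ℤ) - e)) * a ^ (-(e : ℤ)) * a ^ (i : ℤ))
        * (b ^ (-(-((i : ℤ) - e))) * b ^ (-(e : ℤ)) * b ^ (2 * (e : ℤ) - i)) * k := by
    ac_rfl
  rw [this, ← zpow_add, ← zpow_add, ← zpow_add, ← zpow_add]
  have e1 : -((i : ℤ) - e) + -(e : ℤ) + i = 0 := by ring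
  have e2 : -(-((i : ℤ) - e)) + -(e : ℤ) + (2 * (e : ℤ) - i) = 0 := by ring
  rw [e1, e2]
  simp

theorem cg_uniq314 {G : Type*} [CommGroup G] (a b : G) (p : ℕ) :
    a ^ (p + 1) = b * (b ^ p * (a * b⁻¹) ^ (p + 1)) := by
  rw [← mul_assoc, ← pow_succ', mul_pow, inv_pow, mul_comm (a ^ (p + 1)), mul_inv_cancel_left]

theorem grp_quot314 {G : Type*} [Group G] (r x : G) (i₁ i₂ : ℤ) :
    r ^ (-i₁) * x * (r ^ (-i₂) * x)⁻¹ = r ^ (i₂ - i₁) := by
  group

section LocGL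

variable {F : Type*} [Field F] (val : Valuation F (WithZero (Multiplicative ℤ)))

/-- The matrix `A` has integral entries. -/
def IsIntM314 (A : Matrix (Fin 2) (Fin 2) F) : Prop := ∀ i j, val (A i j) ≤ 1

variable {val}

theorem isIntM314_one : IsIntM314 val (1 : Matrix (Fin 2) (Fin 2) F) := by
  intro i j
  by_cases h : i = j
  · rw [h, Matrix.one_apply_eq, map_one]
  · rw [Matrix.one_apply_ne h, map_zero]
    exact zero_le

theorem isIntM314_mul {A B : Matrix (Fin 2) (Fin 2) F} (hA : IsIntM314 val A)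
    (hB : IsIntM314 val B) : IsIntM314 val (A * B) := by
  intro i j
  rw [Matrix.mul_apply, Fin.sum_univ_two]
  exact vint_add314 (vint_mul314 (hA i 0) (hB 0 j)) (vint_mul314 (hA i 1) (hB 1 j))

theorem isIntM314_pow {A : Matrix (Fin 2) (Fin 2) F} (hA : IsIntM314 val A) (k : ℕ) :
    IsIntM314 val (A ^ k) := by
  induction k with
  | zero => rw [pow_zero]; exact isIntM314_one
  | succ k ih => rw [pow_succ]; exact isIntM314_mul ih hA

theorem isIntM314_torM {t n a b : F} (ht : val t ≤ 1) (hn : val n ≤ 1) (ha : val a ≤ 1)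
    (hb : val b ≤ 1) : IsIntM314 val (torM314 t n a b) := by
  intro i j
  fin_cases i <;> fin_cases j
  · simpa [torM314] using ha
  · simpa [torM314] using vint_mul314 hn hb
  · simpa [torM314] using hb
  · simpa [torM314] using vint_add314 ha (vint_mul314 ht hb)

theorem isIntM314_torM_coords {t n a b : F} (h : IsIntM314 val (torM314 t n a b)) :
    val a ≤ 1 ∧ val b ≤ 1 := by
  have h0 := h 0 0
  have h1 := h 1 0
  rw [torM314_apply_zero_zero] at h0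
  rw [torM314_apply_one_zero] at h1
  exact ⟨h0, h1⟩

theorem exists_pow_mul_int314 {ϖ : F} (hϖ : val ϖ = WithZero.exp (-1 : ℤ)) (x : F) :
    ∃ e : ℕ, val (ϖ ^ e * x) ≤ 1 := by
  by_cases hx : x = 0
  · exact ⟨0, by simp [hx]⟩
  · have hv : val x ≠ 0 := (Valuation.ne_zero_iff val).mpr hx
    refine ⟨(WithZero.log (val x)).toNat, ?_⟩
    rw [map_mul, map_pow, hϖ, ← WithZero.exp_log hv, ← WithZero.exp_nsmul, ← WithZero.exp_add,
      ← WithZero.exp_zero, WithZero.exp_le_exp]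
    have := Int.self_le_toNat (WithZero.log (val x))
    simp only [nsmul_eq_mul, WithZero.log_exp]
    omega

theorem exists_pow_mul_int_two314 {ϖ : F} (hϖ : val ϖ = WithZero.exp (-1 : ℤ)) (x y : F) :
    ∃ e : ℕ, val (ϖ ^ e * x) ≤ 1 ∧ val (ϖ ^ e * y) ≤ 1 := by
  obtain ⟨e₁, h₁⟩ := exists_pow_mul_int314 hϖ x
  obtain ⟨e₂, h₂⟩ := exists_pow_mul_int314 hϖ y
  have hϖ1 : val ϖ ≤ 1 := by rw [hϖ]; exact le_of_lt exp_neg_one_lt_one314
  refine ⟨e₁ + e₂, ?_, ?_⟩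
  · have e : ϖ ^ (e₁ + e₂) * x = ϖ ^ e₂ * (ϖ ^ e₁ * x) := by ring
    rw [e]
    exact vint_mul314 (vint_pow314 hϖ1 e₂) h₁
  · have e : ϖ ^ (e₁ + e₂) * y = ϖ ^ e₁ * (ϖ ^ e₂ * y) := by ring
    rw [e]
    exact vint_mul314 (vint_pow314 hϖ1 e₁) h₂

/-- **The local theorem.** -/
theorem local_decomp314 {t n ϖ : F} (ht : val t ≤ 1) (hn : val n ≤ 1)
    (hdisc : val (t ^ 2 - 4 * n) = 1) (hϖ : val ϖ = WithZero.exp (-1 : ℤ))
    {M Mb X : GL (Fin 2) F} (hM : M ∈ torSub314 t n)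
    (hMint : IsIntM314 val (M : Matrix (Fin 2) (Fin 2) F))
    (hdet : (M : Matrix (Fin 2) (Fin 2) F).det = ϖ)
    (hmul : (M : Matrix (Fin 2) (Fin 2) F) * (Mb : Matrix (Fin 2) (Fin 2) F)
      = Matrix.diagonal (fun _ => ϖ))
    (hX : X ∈ torSub314 t n) (hXdet : (X : Matrix (Fin 2) (Fin 2) F).det = 1) :
    ∃! i : ℤ,
      IsIntM314 val (((M * Mb⁻¹) ^ (-i) * X : GL (Fin 2) F) : Matrix (Fin 2) (Fin 2) F) ∧
      IsIntM314 val ((((M * Mb⁻¹) ^ (-i) * X)⁻¹ : GL (Fin 2) F) :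
        Matrix (Fin 2) (Fin 2) F) := by
  obtain ⟨c, d, hMcd⟩ := hM
  have hc : val c ≤ 1 := by
    have := hMint 0 0
    rwa [hMcd, torM314_apply_zero_zero] at this
  have hd : val d ≤ 1 := by
    have := hMint 1 0
    rwa [hMcd, torM314_apply_one_zero] at this
  have hπ : c ^ 2 + t * c * d + n * d ^ 2 = ϖ := by rw [← torM314_det, ← hMcd, hdet]
  have L : LocData314 val t n c d := ⟨ht, hn, hdisc, hc, hd, by rw [hπ]; exact hϖ⟩
  have hMbcd : (Mb : Matrix (Fin 2) (Fin 2) F) = torM314 t n (c + t * d) (-d) := by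
    rw [← torM314_adjugate, ← hMcd]
    have h1 : (M : Matrix (Fin 2) (Fin 2) F) * (Mb : Matrix (Fin 2) (Fin 2) F)
        = (M : Matrix (Fin 2) (Fin 2) F) * (M : Matrix (Fin 2) (Fin 2) F).adjugate := by
      rw [hmul, Matrix.mul_adjugate, hdet, Matrix.smul_one_eq_diagonal]
    have h2 := congrArg (fun A => ((M⁻¹ : GL (Fin 2) F) : Matrix (Fin 2) (Fin 2) F) * A) h1
    simp only [← mul_assoc] at h2
    rw [← Units.val_mul, inv_mul_cancel] at h2
    simpa using h2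
  have hMT : M ∈ torSub314 t n := ⟨c, d, hMcd⟩
  have hMbT : Mb ∈ torSub314 t n := ⟨_, _, hMbcd⟩
  have hMbint : IsIntM314 val (Mb : Matrix (Fin 2) (Fin 2) F) := by
    rw [hMbcd]
    exact isIntM314_torM ht hn L.conj.hc L.conj.hd
  -- uniqueness
  have huniq : ∀ i₁ i₂ : ℤ,
      IsIntM314 val (((M * Mb⁻¹) ^ (-i₁) * X : GL (Fin 2) F) : Matrix (Fin 2) (Fin 2) F) →
      IsIntM314 val ((((M * Mb⁻¹) ^ (-i₂) * X)⁻¹ : GL (Fin 2) F) :
        Matrix (Fin 2) (Fin 2) F) → ¬ i₁ < i₂ := by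
    intro i₁ i₂ h₁ h₂ hlt
    obtain ⟨p, hp⟩ : ∃ p : ℕ, (p : ℤ) + 1 = i₂ - i₁ := ⟨(i₂ - i₁ - 1).toNat, by omega⟩
    have hR : IsIntM314 val (((M * Mb⁻¹) ^ (p + 1) : GL (Fin 2) F) :
        Matrix (Fin 2) (Fin 2) F) := by
      have e : (M * Mb⁻¹) ^ (p + 1)
          = ((M * Mb⁻¹) ^ (-i₁) * X) * ((M * Mb⁻¹) ^ (-i₂) * X)⁻¹ := by
        rw [grp_quot314, ← hp, ← zpow_natCast]
        push_cast
        rfl
      rw [e, Units.val_mul]
      exact isIntM314_mul h₁ h₂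
    have h3 := cg_uniq314 (⟨M, hMT⟩ : torSub314 t n) ⟨Mb, hMbT⟩ p
    have h4 : (M : Matrix (Fin 2) (Fin 2) F) ^ (p + 1)
        = (Mb : Matrix (Fin 2) (Fin 2) F)
          * ((Mb : Matrix (Fin 2) (Fin 2) F) ^ p
            * (((M * Mb⁻¹) ^ (p + 1) : GL (Fin 2) F) : Matrix (Fin 2) (Fin 2) F)) := by
      have := congrArg (fun y : torSub314 t n =>
        ((y : GL (Fin 2) F) : Matrix (Fin 2) (Fin 2) F)) h3
      simpa using this
    obtain ⟨a'', b'', hab⟩ : Mb ^ p * (M * Mb⁻¹) ^ (p + 1) ∈ torSub314 t n :=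
      mul_mem (pow_mem hMbT p) (pow_mem (mul_mem hMT (inv_mem hMbT)) (p + 1))
    have hab' : (Mb : Matrix (Fin 2) (Fin 2) F) ^ p
        * (((M * Mb⁻¹) ^ (p + 1) : GL (Fin 2) F) : Matrix (Fin 2) (Fin 2) F)
        = torM314 t n a'' b'' := by
      rw [← hab]
      simp
    have hint : IsIntM314 val (torM314 t n a'' b'') := by
      rw [← hab']
      exact isIntM314_mul (isIntM314_pow hMbint p) hR
    refine L.not_dvd_pow (p + 1) a'' b'' (isIntM314_torM_coords hint).2 ?_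
    rw [← hMcd, ← hMbcd, ← hab']
    exact h4
  -- existence
  obtain ⟨a, b, hXab⟩ := hX
  obtain ⟨e, ha, hb⟩ := exists_pow_mul_int_two314 hϖ a b
  have hN1 : a ^ 2 + t * a * b + n * b ^ 2 = 1 := by rw [← torM314_det, ← hXab, hXdet]
  have hN : val ((ϖ ^ e * a) ^ 2 + t * (ϖ ^ e * a) * (ϖ ^ e * b) + n * (ϖ ^ e * b) ^ 2)
      = WithZero.exp (-((2 * e : ℕ) : ℤ)) := by
    have e1 : (ϖ ^ e * a) ^ 2 + t * (ϖ ^ e * a) * (ϖ ^ e * b) + n * (ϖ ^ e * b) ^ 2
        = ϖ ^ (2 * e) * (a ^ 2 + t * a * b + n * b ^ 2) := by ring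
    rw [e1, hN1, mul_one, map_pow, hϖ, ← WithZero.exp_nsmul]
    congr 1
    simp
  obtain ⟨i, j, a', b', hij, ha', hb', hN', he'⟩ := L.exists_decomp (2 * e) _ _ ha hb hN
  have hdetκ : (torM314 t n a' b').det ≠ 0 := by
    rw [torM314_det]
    intro h0
    rw [h0, map_zero] at hN'
    exact zero_ne_one hN'
  have hkey : (M * Mb) ^ e * X
      = M ^ i * Mb ^ j * Matrix.GeneralLinearGroup.mkOfDetNeZero (torM314 t n a' b') hdetκ := by
    apply Units.ext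
    simp only [Units.val_mul, Units.val_pow_eq_pow_val]
    rw [hmul, hXab, hMcd, hMbcd]
    change _ = torM314 t n c d ^ i * torM314 t n (c + t * d) (-d) ^ j * torM314 t n a' b'
    rw [← he', ← Matrix.smul_one_eq_diagonal, smul_pow, one_pow, smul_mul_assoc, one_mul,
      torM314_smul]
  have hκT : Matrix.GeneralLinearGroup.mkOfDetNeZero (torM314 t n a' b') hdetκ ∈ torSub314 t n :=
    ⟨a', b', rfl⟩
  have hres := cg_exist314 (⟨M, hMT⟩ : torSub314 t n) ⟨Mb, hMbT⟩ ⟨X, ⟨a, b, hXab⟩⟩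
    ⟨_, hκT⟩ e i j hij (Subtype.ext hkey)
  have hres' : (M * Mb⁻¹) ^ (-((i : ℤ) - e)) * X
      = Matrix.GeneralLinearGroup.mkOfDetNeZero (torM314 t n a' b') hdetκ := by
    have := congrArg (fun y : torSub314 t n => (y : GL (Fin 2) F)) hres
    simpa using this
  have hex1 : IsIntM314 val (((M * Mb⁻¹) ^ (-((i : ℤ) - e)) * X : GL (Fin 2) F) :
      Matrix (Fin 2) (Fin 2) F) := by
    rw [hres']
    exact isIntM314_torM ht hn ha' hb'
  have hex2 : IsIntM314 val ((((M * Mb⁻¹) ^ (-((i : ℤ) - e)) * X)⁻¹ : GL (Fin 2) F) :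
      Matrix (Fin 2) (Fin 2) F) := by
    rw [hres', Matrix.coe_units_inv, Matrix.inv_def]
    change IsIntM314 val (Ring.inverse (torM314 t n a' b').det • (torM314 t n a' b').adjugate)
    rw [torM314_adjugate, torM314_smul, torM314_det, Ring.inverse_eq_inv']
    have hu : val (a' ^ 2 + t * a' * b' + n * b' ^ 2)⁻¹ = 1 := by
      rw [map_inv₀, hN', inv_one]
    exact isIntM314_torM ht hn
      (vint_mul314 (le_of_eq hu) (vint_add314 ha' (vint_mul314 ht hb')))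
      (vint_mul314 (le_of_eq hu) (vint_neg314 hb'))
  refine ⟨(i : ℤ) - e, ⟨hex1, hex2⟩, ?_⟩
  intro y hy
  by_contra hne
  rcases lt_or_gt_of_ne hne with h | h
  · exact huniq y _ hy.1 hex2 h
  · exact huniq _ y hex1 hy.2 h

end LocGL

end Fermat.Agent.LT.A2.H314
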