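import Fermat.Agent.LT.A2.H254.IntSpec
import Fermat.Agent.LT.A2.H314.TorGL

/-!
# Row LT, tower A2, leaf A2.03.8.5.8 `H254.DecompC254` (helper314): CLOSED

OFF-MAIN.  `decompC314 : H254.DecompC254`, verbatim and unconditional (and the spare
`torGroupC314 : H254.TorGroupC254`).

Spec: `LT/A2/H254/IntSpec.lean` (helper254@ddb43b08e, sha256 e654c419, byte-identical copy) and
its closure.  The local theorem is `local_decomp314` (`LT/A2/H314/TorGL.lean`, Mathlib only):
the hypothesis `ninv` of the split pair is not used (it follows from `t² - 4n` being a unit).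

`ρ = μ μ̄⁻¹ ∈ T¹`: `det μ = det μ̄` as ideles (both are `ϖ` at `v` and `1` elsewhere).
`ρ^(-i) m ∈ U ⇔ (ρ^(-i) m)_v ∈ GL₂(𝒪_v)`, and `(ρ^(-i) m)_v = (M M̄⁻¹)^(-i) X`.
-/

set_option autoImplicit false

open IsDedekindDomain NumberField

noncomputable section

namespace Fermat.Agent.LT.A2.H314

open Fermat.Agent.LT.H556 Fermat.Agent.LT.H556.A0 Fermat.Agent.LT.H129
open Fermat.Agent.LT.A2 Fermat.Agent.LT.A2.H142 Fermat.Agent.LT.A2.H254

variable {K : Type} [Field K] [NumberField K]

theorem torMat_eq314 {R : Type*} [CommRing R] (t n a b : R) :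
    torMat t n a b = torM314 t n a b := rfl

theorem inTorus_iff314 (t n : K) (m : G K) :
    InTorus t n m ↔ m ∈ torSub314 (algebraMap K (Adl K) t) (algebraMap K (Adl K) n) :=
  Iff.rfl

theorem evF_algebraMap314 (v : HeightOneSpectrum (𝓞 K)) (x : K) :
    evF129 v (algebraMap K (Adl K) x) = algebraMap K (v.adicCompletion K) x := rfl

/-- The component at `v` of an element of the torus lies in the local torus. -/
theorem finComp_mem_torSub314 (v : HeightOneSpectrum (𝓞 K)) {t n : K} {m : G K}
    (h : InTorus t n m) :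
    finCompHom129 v m ∈ torSub314 (algebraMap K (v.adicCompletion K) t)
      (algebraMap K (v.adicCompletion K) n) := by
  obtain ⟨a, b, hab⟩ := h
  refine ⟨evF129 v a, evF129 v b, ?_⟩
  rw [coe_finCompHom129_map, hab, torMat_eq314, torM314_map, evF_algebraMap314,
    evF_algebraMap314]

/-- The determinant of the component at `v`. -/
theorem det_finComp314 (v : HeightOneSpectrum (𝓞 K)) (g : G K) :
    (finComp v g).det = evF129 v ((Matrix.GeneralLinearGroup.det g : (Adl K)ˣ) : Adl K) := by
  rw [← coe_finCompHom129, coe_finCompHom129_map, Matrix.GeneralLinearGroup.val_det_apply,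
    RingHom.map_det]
  rfl

/-- The determinant of the component at the infinite place `w`. -/
theorem det_infComp314 (w : InfinitePlace K) (g : G K) :
    ((infCompHom129 w g : GL (Fin 2) w.Completion) : Matrix (Fin 2) (Fin 2) w.Completion).det
      = evI129 w ((Matrix.GeneralLinearGroup.det g : (Adl K)ˣ) : Adl K) := by
  rw [coe_infCompHom129_map, Matrix.GeneralLinearGroup.val_det_apply, RingHom.map_det]
  rfl

/-- Two elements supported at `v` with the same determinant at `v` have the same determinant. -/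
theorem det_eq_of_local314 {v : HeightOneSpectrum (𝓞 K)} {g h : G K} (hg : IsLocalAtFin v g)
    (hh : IsLocalAtFin v h) (hdet : (finComp v g).det = (finComp v h).det) :
    Matrix.GeneralLinearGroup.det g = Matrix.GeneralLinearGroup.det h := by
  apply Units.ext
  apply adele_ext129
  · intro w
    have h1 := det_infComp314 w g
    have h2 := det_infComp314 w h
    rw [(trivAtInf_iff129 w g).mp (hg.1 w)] at h1
    rw [(trivAtInf_iff129 w h).mp (hh.1 w)] at h2
    rw [evI129_apply] at h1 h2
    rw [← h1, ← h2]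
  · intro v'
    by_cases hv : v' = v
    · subst hv
      have h1 := det_finComp314 v' g
      have h2 := det_finComp314 v' h
      rw [evF129_apply] at h1 h2
      rw [← h1, ← h2, hdet]
    · have h1 := det_finComp314 v' g
      have h2 := det_finComp314 v' h
      rw [← coe_finCompHom129, (trivAtFin_iff129 v' g).mp (hg.2 v' hv)] at h1
      rw [← coe_finCompHom129, (trivAtFin_iff129 v' h).mp (hh.2 v' hv)] at h2
      rw [evF129_apply] at h1 h2
      rw [← h1, ← h2]

/-- The norm-one torus is closed under products. -/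
theorem inTorus1_mul314 {t n : K} {a b : G K} (ha : InTorus1 t n a) (hb : InTorus1 t n b) :
    InTorus1 t n (a * b) :=
  ⟨(inTorus_iff314 t n _).mpr (mul_mem ((inTorus_iff314 t n a).mp ha.1)
    ((inTorus_iff314 t n b).mp hb.1)), by rw [map_mul, ha.2, hb.2, one_mul]⟩

/-- The norm-one torus is closed under inverses. -/
theorem inTorus1_inv314 {t n : K} {a : G K} (ha : InTorus1 t n a) : InTorus1 t n a⁻¹ :=
  ⟨(inTorus_iff314 t n _).mpr (inv_mem ((inTorus_iff314 t n a).mp ha.1)),
    by rw [map_inv, ha.2, inv_one]⟩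

/-- The norm-one torus is closed under integral powers. -/
theorem inTorus1_zpow314 {t n : K} {a : G K} (ha : InTorus1 t n a) (i : ℤ) :
    InTorus1 t n (a ^ i) :=
  ⟨(inTorus_iff314 t n _).mpr (zpow_mem ((inTorus_iff314 t n a).mp ha.1) i),
    by rw [map_zpow, ha.2, one_zpow]⟩

/-- Integrality at `v` in terms of the valuation. -/
theorem isIntegralAt_iff314 (v : HeightOneSpectrum (𝓞 K)) (g : G K) :
    IsIntegralAt v g ↔ IsIntM314 (Valued.v : Valuation (v.adicCompletion K) _)
      ((finCompHom129 v g : GL (Fin 2) (v.adicCompletion K)) :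
        Matrix (Fin 2) (Fin 2) (v.adicCompletion K)) :=
  Iff.rfl

/-- **A2.03.8.5.8 DECOMP**: `H254.DecompC254`, verbatim and unconditional. -/
theorem decompC314 : DecompC254 := by
  intro K _ _ t n v ht hn hdisc ϖ hϖ μ μb hp
  have hρ : InTorus1 t n (μ * μb⁻¹) := by
    refine ⟨(inTorus_iff314 t n _).mpr (mul_mem ((inTorus_iff314 t n μ).mp hp.tor)
      (inv_mem ((inTorus_iff314 t n μb).mp hp.torb))), ?_⟩
    rw [map_mul, map_inv, det_eq_of_local314 hp.loc hp.locb (by rw [hp.det, hp.detb]),
      mul_inv_cancel]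
  refine ⟨hρ, fun m hm => ?_⟩
  have hdisc' : Valued.v ((algebraMap K (v.adicCompletion K) t) ^ 2
      - 4 * algebraMap K (v.adicCompletion K) n) = 1 := by
    have e : algebraMap K (v.adicCompletion K) (t ^ 2 - 4 * n)
        = (algebraMap K (v.adicCompletion K) t) ^ 2
          - 4 * algebraMap K (v.adicCompletion K) n := by
      rw [map_sub, map_pow, map_mul, map_ofNat]
    rw [← e]
    exact hdisc
  have hXdet : ((finCompHom129 v m : GL (Fin 2) (v.adicCompletion K)) :
      Matrix (Fin 2) (Fin 2) (v.adicCompletion K)).det = 1 := by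
    rw [coe_finCompHom129, det_finComp314, hm.2, Units.val_one, map_one]
  have hloc := local_decomp314 (val := (Valued.v : Valuation (v.adicCompletion K) _))
    ht hn hdisc' hϖ (M := finCompHom129 v μ) (Mb := finCompHom129 v μb)
    (X := finCompHom129 v m) (finComp_mem_torSub314 v hp.tor)
    ((isIntegralAt_iff314 v μ).mp hp.int) hp.det hp.mul (finComp_mem_torSub314 v hm.1) hXdet
  refine (existsUnique_congr fun i => ?_).mpr hloc
  have hmem : InTorus1 t n ((μ * μb⁻¹) ^ (-i) * m) := inTorus1_mul314 (inTorus1_zpow314 hρ _) hm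
  have hmap : finCompHom129 v ((μ * μb⁻¹) ^ (-i) * m)
      = (finCompHom129 v μ * (finCompHom129 v μb)⁻¹) ^ (-i) * finCompHom129 v m := by
    rw [map_mul, map_zpow, map_mul, map_inv]
  constructor
  · rintro ⟨_, h1, h2⟩
    rw [isIntegralAt_iff314, hmap] at h1
    rw [isIntegralAt_iff314, map_inv, hmap] at h2
    exact ⟨h1, h2⟩
  · rintro ⟨h1, h2⟩
    refine ⟨hmem, ?_, ?_⟩
    · rw [isIntegralAt_iff314, hmap]
      exact h1
    · rw [isIntegralAt_iff314, map_inv, hmap]
      exact h2

/-- **A2.03.8.5.6 TOR-GROUP** (spare): `H254.TorGroupC254`, verbatim and unconditional. -/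
theorem torGroupC314 : TorGroupC254 :=
  fun _ _ _ _ _ => ⟨fun _ _ ha hb => inTorus1_mul314 ha hb, fun _ ha => inTorus1_inv314 ha⟩

end Fermat.Agent.LT.A2.H314

end
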