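import Mathlib

/-!
# Row LT, tower A2, leaf A2.03.8.5.8 `H254.DecompC254` (helper314): the algebra of the torus

OFF-MAIN.  Mathlib only.  `torM314 t n a b` is the matrix of the multiplication by `a + b ω`
(`ω² - t ω + n = 0`) in the basis `1, ω`; it is the same matrix as `A2.torMat t n a b`.

* `torM314_mul`, `torM314_det`, `torM314_adjugate`, `torM314_smul`, `torM314_inj`;
* `torSub314 t n : Subgroup (GL (Fin 2) R)`, the torus, and `torSub314_comm`.
-/

set_option autoImplicit false

open Matrix

namespace Fermat.Agent.LT.A2.H314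

/-- The matrix of the multiplication by `a + b ω` in the basis `1, ω` (same as `A2.torMat`). -/
def torM314 {R : Type*} [CommRing R] (t n a b : R) : Matrix (Fin 2) (Fin 2) R :=
  !![a, -(n * b); b, a + t * b]

section Ring

variable {R : Type*} [CommRing R] (t n : R)

theorem torM314_mul (a b a' b' : R) :
    torM314 t n a b * torM314 t n a' b'
      = torM314 t n (a * a' - n * b * b') (a * b' + b * a' + t * b * b') := by
  unfold torM314
  ext i j
  fin_cases i <;> fin_cases j <;> simp [Matrix.mul_apply, Fin.sum_univ_two] <;> ring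

theorem torM314_one : torM314 t n 1 0 = 1 := by
  unfold torM314
  ext i j
  fin_cases i <;> fin_cases j <;> simp

theorem torM314_det (a b : R) : (torM314 t n a b).det = a ^ 2 + t * a * b + n * b ^ 2 := by
  unfold torM314
  rw [Matrix.det_fin_two_of]
  ring

theorem torM314_adjugate (a b : R) :
    (torM314 t n a b).adjugate = torM314 t n (a + t * b) (-b) := by
  unfold torM314
  rw [Matrix.adjugate_fin_two_of]
  ext i j
  fin_cases i <;> fin_cases j <;> simp

theorem torM314_smul (x a b : R) : x • torM314 t n a b = torM314 t n (x * a) (x * b) := by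
  unfold torM314
  ext i j
  fin_cases i <;> fin_cases j <;> simp <;> ring

theorem torM314_inj {a b a' b' : R} (h : torM314 t n a b = torM314 t n a' b') :
    a = a' ∧ b = b' := by
  have h0 := congrFun (congrFun h 0) 0
  have h1 := congrFun (congrFun h 1) 0
  simp [torM314] at h0 h1
  exact ⟨h0, h1⟩

theorem torM314_comm (a b a' b' : R) :
    torM314 t n a b * torM314 t n a' b' = torM314 t n a' b' * torM314 t n a b := by
  rw [torM314_mul, torM314_mul]
  congr 1 <;> ring

theorem torM314_apply_zero_zero (a b : R) : torM314 t n a b 0 0 = a := by simp [torM314]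

theorem torM314_apply_one_zero (a b : R) : torM314 t n a b 1 0 = b := by simp [torM314]

theorem torM314_map {S : Type*} [CommRing S] (f : R →+* S) (a b : R) :
    (torM314 t n a b).map f = torM314 (f t) (f n) (f a) (f b) := by
  unfold torM314
  ext i j
  fin_cases i <;> fin_cases j <;> simp

/-- The torus `{a + b ω}` as a subgroup of `GL₂(R)`. -/
def torSub314 : Subgroup (GL (Fin 2) R) where
  carrier := {g | ∃ a b : R, (g : Matrix (Fin 2) (Fin 2) R) = torM314 t n a b}
  one_mem' := ⟨1, 0, by rw [torM314_one]; rfl⟩
  mul_mem' := by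
    rintro g h ⟨a, b, hg⟩ ⟨a', b', hh⟩
    exact ⟨_, _, by rw [Units.val_mul, hg, hh, torM314_mul]⟩
  inv_mem' := by
    rintro g ⟨a, b, hg⟩
    refine ⟨Ring.inverse (torM314 t n a b).det * (a + t * b),
      Ring.inverse (torM314 t n a b).det * -b, ?_⟩
    rw [Matrix.coe_units_inv, Matrix.inv_def, hg, torM314_adjugate, torM314_smul]

theorem mem_torSub314 {g : GL (Fin 2) R} :
    g ∈ torSub314 t n ↔ ∃ a b : R, (g : Matrix (Fin 2) (Fin 2) R) = torM314 t n a b :=
  Iff.rfl

theorem torSub314_comm {g h : GL (Fin 2) R} (hg : g ∈ torSub314 t n) (hh : h ∈ torSub314 t n) :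
    g * h = h * g := by
  obtain ⟨a, b, hg⟩ := hg
  obtain ⟨a', b', hh⟩ := hh
  apply Units.ext
  rw [Units.val_mul, Units.val_mul, hg, hh, torM314_comm]

/-- The torus is a commutative group. -/
instance torSub314_commGroup : CommGroup (torSub314 t n) :=
  { (inferInstance : Group (torSub314 t n)) with
    mul_comm := fun g h => Subtype.ext (torSub314_comm t n g.2 h.2) }

end Ring

end Fermat.Agent.LT.A2.H314
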