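import Fermat.Agent.LT.A2.H314.TorCore

/-!
# Row LT, tower A2, leaf A2.03.8.5.8 `H254.DecompC254` (helper314): the local structure of the
split torus

OFF-MAIN.  Mathlib only.  `F` is a field with a valuation `val : Valuation F ℤᵐ⁰`, `t`, `n`
integral with `t² - 4n` a unit, `(c, d)` integral with `N(c, d) = c² + t c d + n d²` of valuation
`exp (-1)` (a uniformiser `ϖ`).  `M = torM314 t n c d`, `M̄ = torM314 t n (c + t d) (-d)` (the
conjugate), `M M̄ = ϖ`.

* `LocData314.step`: an integral `(a, b)` with `a d - b c ≡ 0 mod ϖ` is `M · (integral)`;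
* `LocData314.dichotomy`: an integral `(a, b)` with `N(a, b) ≡ 0 mod ϖ` is divisible by `M` or by
  `M̄`;
* `LocData314.exists_decomp`: an integral `(a, b)` with `val N(a, b) = exp (-k)` is
  `M^i M̄^j κ`, `i + j = k`, `κ` integral of unit norm;
* `LocData314.not_dvd_pow`: `M̄` does not divide `M^p`.
-/

set_option autoImplicit false

open Matrix WithZero

namespace Fermat.Agent.LT.A2.H314

section Local

variable {F : Type*} [Field F] (val : Valuation F (WithZero (Multiplicative ℤ)))

theorem le_exp_neg_one314 {y : WithZero (Multiplicative ℤ)} (hy : y < 1) :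
    y ≤ WithZero.exp (-1 : ℤ) := by
  rw [← WithZero.lt_mul_exp_iff_le (by simp), ← WithZero.exp_add]
  simpa using hy

theorem exp_neg_one_lt_one314 : (WithZero.exp (-1 : ℤ) : WithZero (Multiplicative ℤ)) < 1 := by
  rw [← WithZero.exp_zero, WithZero.exp_lt_exp]
  norm_num

variable {val}

theorem vint_mul314 {x y : F} (hx : val x ≤ 1) (hy : val y ≤ 1) : val (x * y) ≤ 1 := by
  rw [map_mul]
  exact Left.mul_le_one hx hy

theorem vint_add314 {x y : F} (hx : val x ≤ 1) (hy : val y ≤ 1) : val (x + y) ≤ 1 :=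
  Valuation.map_add_le val hx hy

theorem vint_sub314 {x y : F} (hx : val x ≤ 1) (hy : val y ≤ 1) : val (x - y) ≤ 1 :=
  Valuation.map_sub_le val hx hy

theorem vint_neg314 {x : F} (hx : val x ≤ 1) : val (-x) ≤ 1 := by
  rwa [Valuation.map_neg]

theorem vint_pow314 {x : F} (hx : val x ≤ 1) (k : ℕ) : val (x ^ k) ≤ 1 := by
  rw [map_pow]
  exact pow_le_one' hx k

theorem vlt_mul_left314 {x y : F} (hx : val x < 1) (hy : val y ≤ 1) : val (x * y) < 1 := by
  rw [map_mul]
  exact mul_lt_one_of_lt_of_le hx hy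

theorem vlt_mul_right314 {x y : F} (hx : val x ≤ 1) (hy : val y < 1) : val (x * y) < 1 := by
  rw [mul_comm]
  exact vlt_mul_left314 hy hx

theorem vprime314 {x y : F} (hx : val x ≤ 1) (hy : val y ≤ 1) (h : val (x * y) < 1) :
    val x < 1 ∨ val y < 1 := by
  by_contra hcon
  rcases not_or.mp hcon with ⟨hc1, hc2⟩
  have h1 : val x = 1 := le_antisymm hx (not_lt.mp hc1)
  have h2 : val y = 1 := le_antisymm hy (not_lt.mp hc2)
  rw [map_mul, h1, h2, one_mul] at h
  exact lt_irrefl _ h

theorem vint_two314 : val (2 : F) ≤ 1 := by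
  have : (2 : F) = 1 + 1 := by norm_num
  rw [this]
  exact vint_add314 (le_of_eq (map_one val)) (le_of_eq (map_one val))

theorem vint_four314 : val (4 : F) ≤ 1 := by
  have : (4 : F) = 2 * 2 := by norm_num
  rw [this]
  exact vint_mul314 vint_two314 vint_two314

variable (val)

/-- The local data: `t`, `n` integral, `t² - 4n` a unit, `(c, d)` integral with norm a
uniformiser. -/
structure LocData314 (t n c d : F) : Prop where
  ht : val t ≤ 1
  hn : val n ≤ 1
  hdisc : val (t ^ 2 - 4 * n) = 1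
  hc : val c ≤ 1
  hd : val d ≤ 1
  hnorm : val (c ^ 2 + t * c * d + n * d ^ 2) = WithZero.exp (-1 : ℤ)

variable {val} {t n c d : F}

namespace LocData314

theorem pi_lt_one (h : LocData314 val t n c d) : val (c ^ 2 + t * c * d + n * d ^ 2) < 1 := by
  rw [h.hnorm]
  exact exp_neg_one_lt_one314

theorem pi_ne_zero (h : LocData314 val t n c d) : c ^ 2 + t * c * d + n * d ^ 2 ≠ 0 := by
  intro h0
  have := h.hnorm
  rw [h0, map_zero] at this
  exact WithZero.exp_ne_zero this.symm

theorem le_pi (h : LocData314 val t n c d) {x : F} (hx : val x < 1) :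
    val x ≤ val (c ^ 2 + t * c * d + n * d ^ 2) := by
  rw [h.hnorm]
  exact le_exp_neg_one314 hx

theorem div_pi (h : LocData314 val t n c d) {x : F} (hx : val x < 1) :
    val (x / (c ^ 2 + t * c * d + n * d ^ 2)) ≤ 1 := by
  rw [map_div₀]
  have hpos : 0 < val (c ^ 2 + t * c * d + n * d ^ 2) := by
    rw [h.hnorm]; exact WithZero.exp_pos
  exact (div_le_one₀ hpos).mpr (h.le_pi hx)

/-- The conjugate data. -/
theorem conj (h : LocData314 val t n c d) : LocData314 val t n (c + t * d) (-d) where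
  ht := h.ht
  hn := h.hn
  hdisc := h.hdisc
  hc := vint_add314 h.hc (vint_mul314 h.ht h.hd)
  hd := vint_neg314 h.hd
  hnorm := by
    have e : (c + t * d) ^ 2 + t * (c + t * d) * (-d) + n * (-d) ^ 2
        = c ^ 2 + t * c * d + n * d ^ 2 := by ring
    rw [e]
    exact h.hnorm

theorem d_unit (h : LocData314 val t n c d) : val d = 1 := by
  by_contra hne
  have hd : val d < 1 := lt_of_le_of_ne h.hd hne
  have h1 : val (c ^ 2) < 1 := by
    have e : c ^ 2 = (c ^ 2 + t * c * d + n * d ^ 2) - (t * c + n * d) * d := by ring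
    rw [e]
    exact Valuation.map_sub_lt val h.pi_lt_one
      (vlt_mul_right314 (vint_add314 (vint_mul314 h.ht h.hc) (vint_mul314 h.hn h.hd)) hd)
  have hc : val c < 1 := by
    by_contra hc'
    have h2 : val c = 1 := le_antisymm h.hc (not_lt.mp hc')
    rw [map_pow, h2, one_pow] at h1
    exact lt_irrefl _ h1
  have hc2 := le_exp_neg_one314 hc
  have hd2 := le_exp_neg_one314 hd
  have hle : ∀ x y z : F, val x ≤ 1 → val y ≤ WithZero.exp (-1 : ℤ) →
      val z ≤ WithZero.exp (-1 : ℤ) →
      val (x * y * z) ≤ WithZero.exp (-1 : ℤ) * WithZero.exp (-1 : ℤ) := by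
    intro x y z hx hy hz
    rw [map_mul, map_mul]
    calc val x * val y * val z ≤ 1 * WithZero.exp (-1 : ℤ) * WithZero.exp (-1 : ℤ) :=
          mul_le_mul' (mul_le_mul' hx hy) hz
      _ = _ := by rw [one_mul]
  have h3 : val (c ^ 2 + t * c * d + n * d ^ 2)
      ≤ WithZero.exp (-1 : ℤ) * WithZero.exp (-1 : ℤ) := by
    have e : c ^ 2 + t * c * d + n * d ^ 2 = 1 * c * c + t * c * d + n * d * d := by ring
    rw [e]
    exact Valuation.map_add_le val
      (Valuation.map_add_le val (hle 1 c c (le_of_eq (map_one val)) hc2 hc2)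
        (hle t c d h.ht hc2 hd2)) (hle n d d h.hn hd2 hd2)
  rw [h.hnorm, ← WithZero.exp_add, WithZero.exp_le_exp] at h3
  norm_num at h3

theorem two_c_unit (h : LocData314 val t n c d) : val (2 * c + t * d) = 1 := by
  have e : (2 * c + t * d) ^ 2
      = (t ^ 2 - 4 * n) * d ^ 2 + 4 * (c ^ 2 + t * c * d + n * d ^ 2) := by ring
  have h1 : val ((t ^ 2 - 4 * n) * d ^ 2) = 1 := by
    rw [map_mul, map_pow, h.hdisc, h.d_unit]; simp
  have h2 : val (4 * (c ^ 2 + t * c * d + n * d ^ 2)) < 1 :=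
    vlt_mul_right314 vint_four314 h.pi_lt_one
  have h3 : val ((2 * c + t * d) ^ 2) = 1 := by
    rw [e, Valuation.map_add_eq_of_lt_left val (by rw [h1]; exact h2), h1]
  rw [map_pow] at h3
  exact sq_eq_one.mp h3

/-- **The step**: an integral `(a, b)` with `a d - b c ≡ 0` is divisible by `M = (c, d)`. -/
theorem step (h : LocData314 val t n c d) {a b : F} (hb : val b ≤ 1)
    (hφ : val (a * d - b * c) < 1) :
    ∃ a₁ b₁ : F, val a₁ ≤ 1 ∧ val b₁ ≤ 1 ∧
      torM314 t n a b = torM314 t n c d * torM314 t n a₁ b₁ := by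
  have hπ := h.pi_ne_zero
  refine ⟨((c + t * d) * a + n * d * b) / (c ^ 2 + t * c * d + n * d ^ 2),
    (c * b - d * a) / (c ^ 2 + t * c * d + n * d ^ 2), ?_, ?_, ?_⟩
  · apply h.div_pi
    -- `e d = (c + t d) φ + b ϖ`
    have e : ((c + t * d) * a + n * d * b) * d
        = (c + t * d) * (a * d - b * c) + b * (c ^ 2 + t * c * d + n * d ^ 2) := by ring
    have h1 : val (((c + t * d) * a + n * d * b) * d) < 1 := by
      rw [e]
      exact Valuation.map_add_lt val
        (vlt_mul_right314 (vint_add314 h.hc (vint_mul314 h.ht h.hd)) hφ)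
        (vlt_mul_right314 hb h.pi_lt_one)
    rwa [map_mul, h.d_unit, mul_one] at h1
  · apply h.div_pi
    have e : c * b - d * a = -(a * d - b * c) := by ring
    rwa [e, Valuation.map_neg]
  · rw [torM314_mul]
    congr 1
    · rw [eq_comm, ← mul_div_assoc, ← mul_div_assoc, ← sub_div, div_eq_iff hπ]
      ring
    · rw [eq_comm, ← mul_div_assoc, ← mul_div_assoc, ← mul_div_assoc, ← add_div, ← add_div,
        div_eq_iff hπ]
      ring

/-- **The dichotomy**: an integral `(a, b)` whose norm is not a unit is divisible by `M` or by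
`M̄`. -/
theorem dichotomy (h : LocData314 val t n c d) {a b : F} (ha : val a ≤ 1) (hb : val b ≤ 1)
    (hN : val (a ^ 2 + t * a * b + n * b ^ 2) < 1) :
    (∃ a₁ b₁ : F, val a₁ ≤ 1 ∧ val b₁ ≤ 1 ∧
      torM314 t n a b = torM314 t n c d * torM314 t n a₁ b₁) ∨
    (∃ a₁ b₁ : F, val a₁ ≤ 1 ∧ val b₁ ≤ 1 ∧
      torM314 t n a b = torM314 t n (c + t * d) (-d) * torM314 t n a₁ b₁) := by
  have e : (a * d - b * c) * (a * -d - b * (c + t * d))
      = b ^ 2 * (c ^ 2 + t * c * d + n * d ^ 2) - d ^ 2 * (a ^ 2 + t * a * b + n * b ^ 2) := by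
    ring
  have h1 : val ((a * d - b * c) * (a * -d - b * (c + t * d))) < 1 := by
    rw [e]
    exact Valuation.map_sub_lt val (vlt_mul_right314 (vint_pow314 hb 2) h.pi_lt_one)
      (vlt_mul_right314 (vint_pow314 h.hd 2) hN)
  have hi1 : val (a * d - b * c) ≤ 1 :=
    vint_sub314 (vint_mul314 ha h.hd) (vint_mul314 hb h.hc)
  have hi2 : val (a * -d - b * (c + t * d)) ≤ 1 :=
    vint_sub314 (vint_mul314 ha h.conj.hd) (vint_mul314 hb h.conj.hc)
  rcases vprime314 hi1 hi2 h1 with h2 | h2
  · exact Or.inl (h.step hb h2)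
  · exact Or.inr (h.conj.step hb h2)

/-- **The decomposition**: an integral `(a, b)` with `val N(a, b) = exp (-k)` is `M^i M̄^j κ`
with `i + j = k` and `κ` integral of unit norm. -/
theorem exists_decomp (h : LocData314 val t n c d) :
    ∀ (k : ℕ) (a b : F), val a ≤ 1 → val b ≤ 1 →
      val (a ^ 2 + t * a * b + n * b ^ 2) = WithZero.exp (-(k : ℤ)) →
      ∃ (i j : ℕ) (a' b' : F), i + j = k ∧ val a' ≤ 1 ∧ val b' ≤ 1 ∧
        val (a' ^ 2 + t * a' * b' + n * b' ^ 2) = 1 ∧
        torM314 t n a b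
          = torM314 t n c d ^ i * torM314 t n (c + t * d) (-d) ^ j * torM314 t n a' b' := by
  intro k
  induction k with
  | zero =>
    intro a b ha hb hN
    exact ⟨0, 0, a, b, rfl, ha, hb, by simpa using hN, by simp⟩
  | succ k ih =>
    intro a b ha hb hN
    have hlt : val (a ^ 2 + t * a * b + n * b ^ 2) < 1 := by
      rw [hN, ← WithZero.exp_zero, WithZero.exp_lt_exp]
      push_cast
      omega
    -- the norm of the quotient
    have key : ∀ (c' d' a₁ b₁ : F),
        val (c' ^ 2 + t * c' * d' + n * d' ^ 2) = WithZero.exp (-1 : ℤ) →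
        torM314 t n a b = torM314 t n c' d' * torM314 t n a₁ b₁ →
        val (a₁ ^ 2 + t * a₁ * b₁ + n * b₁ ^ 2) = WithZero.exp (-(k : ℤ)) := by
      intro c' d' a₁ b₁ hπ he
      have hdet := congrArg Matrix.det he
      rw [Matrix.det_mul, torM314_det, torM314_det, torM314_det] at hdet
      have h2 := congrArg val hdet
      rw [map_mul, hN, hπ] at h2
      have h3 : (WithZero.exp (-((k + 1 : ℕ) : ℤ)) : WithZero (Multiplicative ℤ))
          = WithZero.exp (-1 : ℤ) * WithZero.exp (-(k : ℤ)) := by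
        rw [← WithZero.exp_add]
        congr 1
        push_cast
        ring
      rw [h3] at h2
      exact (mul_left_cancel₀ WithZero.exp_ne_zero h2).symm
    rcases h.dichotomy ha hb hlt with ⟨a₁, b₁, ha₁, hb₁, he⟩ | ⟨a₁, b₁, ha₁, hb₁, he⟩
    · obtain ⟨i, j, a', b', hij, ha', hb', hN', he'⟩ :=
        ih a₁ b₁ ha₁ hb₁ (key c d a₁ b₁ h.hnorm he)
      refine ⟨i + 1, j, a', b', by omega, ha', hb', hN', ?_⟩
      rw [he, he', pow_succ']
      simp only [mul_assoc]
    · obtain ⟨i, j, a', b', hij, ha', hb', hN', he'⟩ :=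
        ih a₁ b₁ ha₁ hb₁ (key (c + t * d) (-d) a₁ b₁ h.conj.hnorm he)
      refine ⟨i, j + 1, a', b', by omega, ha', hb', hN', ?_⟩
      have hcomm : Commute (torM314 t n (c + t * d) (-d)) (torM314 t n c d) :=
        torM314_comm t n _ _ _ _
      rw [he, he', pow_succ', ← mul_assoc, ← mul_assoc, ← mul_assoc, (hcomm.pow_right i).eq]

/-- The powers of `M`: integral, and `ψ(M^p) = d a + (c + t d) b` is a unit. -/
theorem pow_eq (h : LocData314 val t n c d) (p : ℕ) :
    ∃ a b : F, val a ≤ 1 ∧ val b ≤ 1 ∧ torM314 t n c d ^ p = torM314 t n a b ∧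
      val (d * a + (c + t * d) * b) = 1 := by
  induction p with
  | zero =>
    refine ⟨1, 0, le_of_eq (map_one val), by simp, by rw [pow_zero, torM314_one], ?_⟩
    simpa using h.d_unit
  | succ p ih =>
    obtain ⟨a, b, ha, hb, he, hψ⟩ := ih
    refine ⟨a * c - n * b * d, a * d + b * c + t * b * d, ?_, ?_, ?_, ?_⟩
    · exact vint_sub314 (vint_mul314 ha h.hc) (vint_mul314 (vint_mul314 h.hn hb) h.hd)
    · exact vint_add314 (vint_add314 (vint_mul314 ha h.hd) (vint_mul314 hb h.hc))
        (vint_mul314 (vint_mul314 h.ht hb) h.hd)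
    · rw [pow_succ, he, torM314_mul]
    · have e : d * (a * c - n * b * d) + (c + t * d) * (a * d + b * c + t * b * d)
          = (d * a + (c + t * d) * b) * (2 * c + t * d)
            - b * (c ^ 2 + t * c * d + n * d ^ 2) := by ring
      have h1 : val ((d * a + (c + t * d) * b) * (2 * c + t * d)) = 1 := by
        rw [map_mul, hψ, h.two_c_unit, one_mul]
      have h2 : val (b * (c ^ 2 + t * c * d + n * d ^ 2)) < 1 :=
        vlt_mul_right314 hb h.pi_lt_one
      rw [e, Valuation.map_sub_eq_of_lt_left val (by rw [h1]; exact h2), h1]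

/-- `M̄` does not divide `M^p`. -/
theorem not_dvd_pow (h : LocData314 val t n c d) (p : ℕ) (a' b' : F) (hb' : val b' ≤ 1) :
    torM314 t n c d ^ p ≠ torM314 t n (c + t * d) (-d) * torM314 t n a' b' := by
  intro he
  obtain ⟨a, b, _, _, hp, hψ⟩ := h.pow_eq p
  rw [hp, torM314_mul] at he
  obtain ⟨h1, h2⟩ := torM314_inj t n he
  have e : d * a + (c + t * d) * b = b' * (c ^ 2 + t * c * d + n * d ^ 2) := by
    rw [h1, h2]; ring
  rw [e] at hψ
  have h3 := vlt_mul_right314 hb' h.pi_lt_one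
  rw [hψ] at h3
  exact lt_irrefl _ h3

end LocData314

end Local

end Fermat.Agent.LT.A2.H314
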